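import Mathlib
import Fermat.Agent.LT.T1.Spec
import Fermat.Agent.LT.T5.Spec

/-!
# Row LT, adapter T1 → T5 (helper62): a frame exists

OFF-MAIN.  The tower Prop `T5.Tower` (and `T5.STFsigma`, `T5.GeomUnfold`) quantifies over frames
`(μ, F, r)` with `T5.IsFrame μ F`, `T5.IsRayGen r`, `T5.AutPreserves s 𝔫 μ r`.  The consumer
(T4 / T7) has to instantiate them.  This file produces a frame from the interface Props of tower
T1, in the vocabulary of `T5/Spec.lean` (helper32) and `T1/Spec.lean` (helper54), both VERBATIM.

* `isInvInvariant_of_rightInvariant62` : (Mathlib only) on a second countable locally compact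
  group, a Haar measure which is right invariant is invariant under inversion.
* `exists_rayGen62` : a generator `r` of the discrete central ray exists.
* `autPreserves_id62` : `AutPreserves (AdelicAut.id K) 𝔫 μ r` for every `μ`, `r`, `𝔫`.
* `isFrame_of_T1_62` : a Haar measure `μ` + `T1.UnimodC` + the fundamental domain of
  `T1.FundDomC` for `μ` give `T5.IsFrame μ F`.
* `frame_exists62` : `T1.LocCompC K → T1.UnimodC K → T1.FundDomC K →
  ∃ μ F r, IsFrame μ F ∧ IsRayGen r ∧ AutPreserves (AdelicAut.id K) 𝔫 μ r`.
-/

set_option autoImplicit false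

open IsDedekindDomain NumberField MeasureTheory
open scoped MatrixGroups

noncomputable section

namespace Fermat.Agent.LT.T5.H62

open Fermat.Agent.LT.H556.A0

/-! ## 1. Unimodular ⇒ inversion invariant (Mathlib only) -/

/-- On a second countable locally compact group, a right invariant Haar measure is invariant
under inversion.  (Mathlib has this for commutative groups only.) -/
theorem isInvInvariant_of_rightInvariant62 {G : Type*} [Group G] [TopologicalSpace G]
    [IsTopologicalGroup G] [MeasurableSpace G] [BorelSpace G] [LocallyCompactSpace G]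
    [SecondCountableTopology G] (μ : Measure G) [μ.IsHaarMeasure] [μ.IsMulRightInvariant] :
    μ.IsInvInvariant := by
  constructor
  let c : NNReal := Measure.haarScalarFactor μ.inv μ
  have hc : μ.inv = c • μ := Measure.isMulLeftInvariant_eq_smul μ.inv μ
  have h2 : Measure.map Inv.inv (Measure.map Inv.inv μ) = (c * c) • μ := by
    rw [← Measure.inv_def μ, hc, Measure.map_smul, ← Measure.inv_def μ, hc, smul_smul]
  have μeq : μ = (c * c) • μ := by
    rw [Measure.map_map continuous_inv.measurable continuous_inv.measurable] at h2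
    simpa only [inv_involutive, Function.Involutive.comp_self, Measure.map_id] using h2
  have K : TopologicalSpace.PositiveCompacts G := Classical.arbitrary _
  have hK0 : μ K ≠ 0 := (Measure.measure_pos_of_nonempty_interior _ K.interior_nonempty).ne'
  have hKt : μ K ≠ ⊤ := K.isCompact.measure_lt_top.ne
  have h3 : ((c * c : NNReal) : ENNReal) * μ K = 1 * μ K := by
    conv_rhs => rw [μeq]
    simp
  have h4 : ((c * c : NNReal) : ENNReal) = 1 := (ENNReal.mul_left_inj hK0 hKt).1 h3
  have h5 : c * c = 1 := by exact_mod_cast h4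
  have h6 : c = 1 := by
    have h7 : (c : ℝ) * (c : ℝ) = 1 := by exact_mod_cast h5
    have h8 : (0 : ℝ) ≤ c := c.2
    have h9 : (c : ℝ) = 1 := by nlinarith
    exact_mod_cast h9
  rw [hc, h6, one_smul]

/-! ## 2. The ray generator -/

variable {K : Type} [Field K] [NumberField K]

omit [NumberField K] in
/-- Every real number is the image of an element of the completion at an infinite place. -/
theorem exists_completion_eq_ofReal62 (w : InfinitePlace K) (t : ℝ) :
    ∃ c : w.Completion, InfinitePlace.Completion.extensionEmbedding w c = (t : ℂ) := by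
  rcases InfinitePlace.isReal_or_isComplex w with hw | hw
  · obtain ⟨c, hc⟩ := InfinitePlace.Completion.surjective_extensionEmbeddingOfIsReal hw t
    refine ⟨c, ?_⟩
    rw [← InfinitePlace.Completion.extensionEmbeddingOfIsReal_apply hw, hc]
  · exact InfinitePlace.Completion.surjective_extensionEmbedding_of_isComplex hw (t : ℂ)

/-- A central element of `GL₂(𝔸_K)` which is `1` at the finite places and the real scalar `t ≠ 0`
at every infinite place. -/
theorem exists_centralRay62 (t : ℝ) (ht : t ≠ 0) :
    ∃ r : G K, (∀ v : HeightOneSpectrum (𝓞 K), TrivAtFin v r) ∧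
      ∀ w : InfinitePlace K, infComp w r = Matrix.diagonal (fun _ => (t : ℂ)) := by
  classical
  choose c hc using fun w : InfinitePlace K => exists_completion_eq_ofReal62 w t
  choose c' hc' using fun w : InfinitePlace K => exists_completion_eq_ofReal62 w t⁻¹
  have hcc : ∀ w, c w * c' w = 1 := by
    intro w
    apply (InfinitePlace.Completion.extensionEmbedding w).injective
    rw [map_mul, hc, hc', map_one, ← Complex.ofReal_mul, mul_inv_cancel₀ ht, Complex.ofReal_one]
  let x : Adl K := (fun w => c w, 1)
  let x' : Adl K := (fun w => c' w, 1)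
  have hxx : x * x' = 1 := by
    refine Prod.ext ?_ ?_
    · funext w
      exact hcc w
    · show (1 : FiniteAdeleRing (𝓞 K) K) * 1 = 1
      rw [mul_one]
  let u : (Adl K)ˣ := ⟨x, x', hxx, by rw [mul_comm]; exact hxx⟩
  let r : G K := Units.map (Matrix.scalar (Fin 2)).toMonoidHom u
  have hr : (r : Matrix (Fin 2) (Fin 2) (Adl K)) = Matrix.diagonal (fun _ => x) := rfl
  refine ⟨r, ?_, ?_⟩
  · intro v
    show finComp v r = 1
    apply Matrix.ext
    intro i j
    show ((r : Matrix (Fin 2) (Fin 2) (Adl K)) i j).2 v = _
    rw [hr]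
    by_cases hij : i = j
    · subst hij
      rw [Matrix.diagonal_apply_eq, Matrix.one_apply_eq]
      rfl
    · rw [Matrix.diagonal_apply_ne _ hij, Matrix.one_apply_ne hij]
      rfl
  · intro w
    apply Matrix.ext
    intro i j
    show InfinitePlace.Completion.extensionEmbedding w
      (((r : Matrix (Fin 2) (Fin 2) (Adl K)) i j).1 w) = _
    rw [hr]
    by_cases hij : i = j
    · subst hij
      rw [Matrix.diagonal_apply_eq, Matrix.diagonal_apply_eq]
      exact hc w
    · rw [Matrix.diagonal_apply_ne _ hij, Matrix.diagonal_apply_ne _ hij]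
      exact map_zero _

/-- **A generator of the discrete central ray exists.** -/
theorem exists_rayGen62 (K : Type) [Field K] [NumberField K] : ∃ r : G K, IsRayGen r := by
  have hn : 2 * Module.finrank ℚ K ≠ 0 :=
    Nat.mul_ne_zero two_ne_zero (Module.finrank_pos (R := ℚ) (M := K)).ne'
  set t : ℝ := (2 : ℝ) ^ (((2 * Module.finrank ℚ K : ℕ) : ℝ)⁻¹) with ht
  have htpos : 0 < t := Real.rpow_pos_of_pos two_pos _
  have htpow : t ^ (2 * Module.finrank ℚ K) = 2 :=
    Real.rpow_inv_natCast_pow (by norm_num : (0 : ℝ) ≤ 2) hn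
  obtain ⟨r, hfin, hinf⟩ := exists_centralRay62 (K := K) t htpos.ne'
  exact ⟨r, hfin, t, htpos, htpow, hinf⟩

/-! ## 3. The trivial automorphism preserves every frame -/

attribute [local instance] Fermat.Agent.LT.T5.instMeasurableSpaceG

theorem onG_id62 (g : G K) : (AdelicAut.id K).onG g = g := by
  apply Units.ext
  ext i j
  rfl

theorem onGinv_id62 (g : G K) : (AdelicAut.id K).onGinv g = g := by
  apply Units.ext
  ext i j
  rfl

theorem onRat_id62 (γ : GL (Fin 2) K) : (AdelicAut.id K).onRat γ = γ := by
  apply Units.ext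
  ext i j
  rfl

/-- `AutPreserves` holds for the trivial automorphism (the frame of T4). -/
theorem autPreserves_id62 (𝔫 : Ideal (𝓞 K)) (μ : Measure (G K)) (r : G K) :
    AutPreserves (AdelicAut.id K) 𝔫 μ r where
  left_inverse g := by rw [onG_id62, onGinv_id62]
  right_inverse g := by rw [onGinv_id62, onG_id62]
  rat γ := by rw [onG_id62, onRat_id62]
  cont := by
    have : ((AdelicAut.id K).onG : G K → G K) = id := funext onG_id62
    rw [this]
    exact continuous_id
  measure A _ := by
    have : ((AdelicAut.id K).onG : G K → G K) = id := funext onG_id62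
    rw [this, Set.preimage_id]
  ray := onG_id62 r
  slab g := by rw [onG_id62]
  level u := by rw [onG_id62]
  arch k := by rw [onG_id62]

/-! ## 4. The frame -/

theorem slab_eq62 (K : Type) [Field K] [NumberField K] :
    Fermat.Agent.LT.T5.slab K = Fermat.Agent.LT.T1.slab K := rfl

theorem ratG_eq62 (K : Type) [Field K] [NumberField K] :
    (Fermat.Agent.LT.T5.ratG : GL (Fin 2) K →* G K) = Fermat.Agent.LT.T1.ratG K := rfl

/-- A Haar measure which is right invariant, together with a strict fundamental domain of finite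
measure in the slab (the shape of `T1.FundDomC`), is a frame. -/
theorem isFrame_of_haar62 [LocallyCompactSpace (G K)] [SecondCountableTopology (G K)]
    (μ : Measure (G K)) [μ.IsHaarMeasure] [μ.IsMulRightInvariant] (F : Set (G K))
    (hmeas : MeasurableSet F) (hsub : F ⊆ Fermat.Agent.LT.T1.slab K)
    (hstrict : ∀ g ∈ Fermat.Agent.LT.T1.slab K,
      ∃! γ : GL (Fin 2) K, Fermat.Agent.LT.T1.ratG K γ * g ∈ F)
    (hfin : μ F < ⊤) : IsFrame μ F := by
  have : BorelSpace (G K) := ⟨rfl⟩
  have : μ.IsInvInvariant := isInvInvariant_of_rightInvariant62 μ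
  exact
    { haar := inferInstance
      right_inv := fun g A _ => measure_preimage_mul_right μ g A
      inv_inv := fun A _ => Measure.measure_preimage_inv μ A
      meas := hmeas
      sub := hsub
      strict := hstrict
      finite := hfin }

/-- For EVERY Haar measure `μ` of `GL₂(𝔸_K)` there is `F` with `IsFrame μ F`. -/
theorem exists_isFrame62 (K : Type) [Field K] [NumberField K]
    (hLC : Fermat.Agent.LT.T1.LocCompC K) (hU : Fermat.Agent.LT.T1.UnimodC K)
    (hFD : Fermat.Agent.LT.T1.FundDomC K) (μ : Measure (G K)) (hμ : μ.IsHaarMeasure) :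
    ∃ F : Set (G K), IsFrame μ F := by
  have : LocallyCompactSpace (G K) := hLC.2.1
  have : SecondCountableTopology (G K) := hLC.2.2.2
  have : μ.IsMulRightInvariant := hU μ hμ
  obtain ⟨F, hmeas, hsub, hstrict, hfin⟩ := hFD μ hμ
  exact ⟨F, isFrame_of_haar62 μ F hmeas hsub hstrict hfin⟩

/-- **A frame exists** (T1 ⇒ the frame of T5, for the trivial automorphism = the frame of T4). -/
theorem frame_exists62 (K : Type) [Field K] [NumberField K] (𝔫 : Ideal (𝓞 K))
    (hLC : Fermat.Agent.LT.T1.LocCompC K) (hU : Fermat.Agent.LT.T1.UnimodC K)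
    (hFD : Fermat.Agent.LT.T1.FundDomC K) :
    ∃ (μ : Measure (G K)) (F : Set (G K)) (r : G K),
      IsFrame μ F ∧ IsRayGen r ∧ AutPreserves (AdelicAut.id K) 𝔫 μ r := by
  have : LocallyCompactSpace (G K) := hLC.2.1
  have : SecondCountableTopology (G K) := hLC.2.2.2
  have : BorelSpace (G K) := ⟨rfl⟩
  let K0 : TopologicalSpace.PositiveCompacts (G K) := Classical.arbitrary _
  let μ : Measure (G K) := Measure.haarMeasure K0
  have : μ.IsHaarMeasure := inferInstance
  have : μ.IsMulRightInvariant := hU μ inferInstance
  obtain ⟨F, hmeas, hsub, hstrict, hfin⟩ := hFD μ inferInstance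
  obtain ⟨r, hr⟩ := exists_rayGen62 K
  exact ⟨μ, F, r, isFrame_of_haar62 μ F hmeas hsub hstrict hfin, hr, autPreserves_id62 𝔫 μ r⟩

/-- The same from the output structure of tower T1. -/
theorem frame_exists_of_T1Out62 (K : Type) [Field K] [NumberField K] (𝔫 : Ideal (𝓞 K))
    (h : Fermat.Agent.LT.T1.T1Out K) :
    ∃ (μ : Measure (G K)) (F : Set (G K)) (r : G K),
      IsFrame μ F ∧ IsRayGen r ∧ AutPreserves (AdelicAut.id K) 𝔫 μ r :=
  frame_exists62 K 𝔫 h.locComp h.unimod h.fundDom

end Fermat.Agent.LT.T5.H62

end
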